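import Fermat.Agent.Ellentuck.Partitions
import Mathlib.MeasureTheory.Constructions.Polish.Basic
import Mathlib.Logic.Relation

/-!
# Better-quasi-orders and the minimal bad array lemma

An array is a Borel map with countable range on the space of infinite sets of natural numbers; it
is bad when it never increases from a set to the same set without its least element.  Below a
well-founded partial ranking every bad array has a minimal bad one.
-/

set_option autoImplicit false

universe u v

namespace FA.Laver

open Set MeasureTheory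

/-- Deleting the least element, on indicator functions. -/
def tailMap (z : ℕ → Bool) (i : ℕ) : Bool :=
  z i && (List.range i).any z

theorem measurable_tailMap : Measurable tailMap :=
  measurable_pi_lambda _ fun i => by
    have hany : ∀ l : List ℕ, Measurable fun z : ℕ → Bool => l.any z := fun l => by
      induction l with
      | nil => exact measurable_const
      | cons a l ih =>
        exact (Measurable.of_discrete (f := fun p : Bool × Bool => p.1 || p.2)).comp
          ((measurable_pi_apply a).prodMk ih)
    exact (Measurable.of_discrete (f := fun p : Bool × Bool => p.1 && p.2)).comp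
      ((measurable_pi_apply i).prodMk (hany _))

/-- An infinite set without its least element. -/
noncomputable def dropMin (C : Set ℕ) : Set ℕ :=
  C \ {sInf C}

theorem dropMin_subset (C : Set ℕ) : dropMin C ⊆ C :=
  sdiff_subset

theorem dropMin_infinite {C : Set ℕ} (hC : C.Infinite) : (dropMin C).Infinite :=
  hC.sdiff (finite_singleton _)

theorem tailMap_boolIndicator (C : Set ℕ) :
    tailMap C.boolIndicator = (dropMin C).boolIndicator := by
  funext i
  rw [Bool.eq_iff_iff, ← mem_iff_boolIndicator]
  simp only [tailMap, Bool.and_eq_true, List.any_eq_true, List.mem_range, ← mem_iff_boolIndicator,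
    dropMin, Set.mem_sdiff, mem_singleton_iff]
  refine and_congr_right fun hi => ⟨?_, fun hne => ?_⟩
  · rintro ⟨j, hji, hj⟩ rfl
    exact (Nat.sInf_le hj).not_gt hji
  · exact ⟨sInf C, lt_of_le_of_ne (Nat.sInf_le hi) (Ne.symm hne), Nat.sInf_mem ⟨i, hi⟩⟩

/-- The indicator functions of subsets of a given set. -/
def within (B : Set ℕ) : Set (ℕ → Bool) :=
  {z | ∀ i, z i = true → i ∈ B}

theorem measurableSet_within (B : Set ℕ) : MeasurableSet (within B) := by
  have e : within B = ⋂ i ∈ Bᶜ, {z : ℕ → Bool | z i = false} := by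
    ext z
    simp only [within, mem_ofPred_eq, mem_iInter, mem_compl_iff]
    exact forall_congr' fun i => by cases z i <;> simp
  rw [e]
  exact MeasurableSet.biInter (to_countable _) fun i _ =>
    measurable_pi_apply (X := fun _ : ℕ => Bool) i (measurableSet_singleton false)

theorem boolIndicator_mem_within {B C : Set ℕ} : C.boolIndicator ∈ within B ↔ C ⊆ B := by
  simp [within, ← mem_iff_boolIndicator, subset_def]

variable {Q : Type u}

/-- A Borel map with countable range. -/
def IsArray (f : (ℕ → Bool) → Q) : Prop :=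
  (range f).Countable ∧ ∀ q, MeasurableSet (f ⁻¹' {q})

/-- The value of an array at an infinite set. -/
noncomputable def val (f : (ℕ → Bool) → Q) (C : Set ℕ) : Q :=
  f C.boolIndicator

theorem IsArray.measurableSet_preimage {f : (ℕ → Bool) → Q} (hf : IsArray f) (S : Set Q) :
    MeasurableSet (f ⁻¹' S) := by
  have e : f ⁻¹' S = ⋃ q ∈ range f ∩ S, f ⁻¹' {q} := by
    ext z
    simp
  rw [e]
  exact MeasurableSet.biUnion (hf.1.mono inter_subset_left) fun q _ => hf.2 q

theorem IsArray.comp {R : Type v} {f : (ℕ → Bool) → Q} (hf : IsArray f) (g : Q → R) :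
    IsArray (g ∘ f) :=
  ⟨by rw [range_comp]; exact hf.1.image g, fun q => hf.measurableSet_preimage (g ⁻¹' {q})⟩

theorem IsArray.tail {f : (ℕ → Bool) → Q} (hf : IsArray f) : IsArray (f ∘ tailMap) :=
  ⟨hf.1.mono (range_comp_subset_range _ _), fun q => measurable_tailMap (hf.2 q)⟩

theorem IsArray.prodMk {R : Type v} {f : (ℕ → Bool) → Q} (hf : IsArray f) {g : (ℕ → Bool) → R}
    (hg : IsArray g) : IsArray fun z => (f z, g z) := by
  refine ⟨(hf.1.prod hg.1).mono ?_, fun q => ?_⟩
  · rintro _ ⟨z, rfl⟩
    exact ⟨mem_range_self z, mem_range_self z⟩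
  · convert (hf.2 q.1).inter (hg.2 q.2) using 1
    ext z
    simp [Prod.ext_iff]

open Classical in
theorem IsArray.piecewise {f g : (ℕ → Bool) → Q} (hf : IsArray f) (hg : IsArray g)
    {S : Set (ℕ → Bool)} (hS : MeasurableSet S) : IsArray (S.piecewise f g) := by
  refine ⟨(hf.1.union hg.1).mono ?_, fun q => ?_⟩
  · rintro _ ⟨z, rfl⟩
    by_cases h : z ∈ S <;> simp [h]
  · convert (hS.inter (hf.2 q)).union (hS.compl.inter (hg.2 q)) using 1
    ext z
    by_cases h : z ∈ S <;> simp [h]

/-- The values of an array at a set and at the set without its least element. -/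
theorem val_pair {R : Type v} (f : (ℕ → Bool) → Q) (g : Q × Q → R) (C : Set ℕ) :
    val (g ∘ fun z => (f z, f (tailMap z))) C = g (val f C, val f (dropMin C)) := by
  simp [val, tailMap_boolIndicator]

/-- A bad array on the infinite subsets of `D`. -/
def IsBad (r : Q → Q → Prop) (f : (ℕ → Bool) → Q) (D : Set ℕ) : Prop :=
  ∀ C ⊆ D, C.Infinite → ¬r (val f C) (val f (dropMin C))

theorem IsBad.mono {r : Q → Q → Prop} {f : (ℕ → Bool) → Q} {D B : Set ℕ} (h : IsBad r f D)
    (hB : B ⊆ D) : IsBad r f B :=
  fun C hC => h C (hC.trans hB)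

/-- A better-quasi-order: there is no bad array. -/
def IsBQO (r : Q → Q → Prop) : Prop :=
  ∀ f : (ℕ → Bool) → Q, IsArray f → ∀ D : Set ℕ, D.Infinite → ¬IsBad r f D

/-- Better-quasi-orders have no infinite bad sequences. -/
theorem IsBQO.exists_le {r : Q → Q → Prop} (h : IsBQO r) (q : ℕ → Q) :
    ∃ i j, i < j ∧ r (q i) (q j) := by
  classical
  have hbad := h (fun z => if hz : ∃ i, z i = true then q (Nat.find hz) else q 0)
    ⟨(countable_range q).mono ?_, fun p => ?_⟩ univ infinite_univ
  · simp only [IsBad, not_forall, not_not] at hbad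
    obtain ⟨C, -, hC, hr⟩ := hbad
    have hex : ∀ C : Set ℕ, C.Infinite → ∃ i, C.boolIndicator i = true := fun C hC =>
      hC.nonempty.imp fun i hi => (mem_iff_boolIndicator C i).1 hi
    have hC' := dropMin_infinite hC
    rw [val, val, dif_pos (hex C hC), dif_pos (hex _ hC')] at hr
    refine ⟨_, _, ?_, hr⟩
    have h1 : sInf C = Nat.find (hex C hC) := by
      refine le_antisymm (Nat.sInf_le ((mem_iff_boolIndicator C _).2 (Nat.find_spec (hex C hC)))) ?_
      exact Nat.find_min' _ ((mem_iff_boolIndicator C _).1 (Nat.sInf_mem hC.nonempty))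
    obtain ⟨hm, hne⟩ : Nat.find (hex _ hC') ∈ C \ {sInf C} :=
      (mem_iff_boolIndicator (dropMin C) _).2 (Nat.find_spec (hex _ hC'))
    exact h1 ▸ lt_of_le_of_ne (Nat.sInf_le hm) (Ne.symm hne)
  · rintro _ ⟨z, rfl⟩
    by_cases hz : ∃ i, z i = true <;> simp [hz]
  · have hm : Measurable fun z : ℕ → Bool => fun i => z i := measurable_id
    let S : Option ℕ → Set (ℕ → Bool) := fun o => match o with
      | none => ⋂ i, {z | z i = false}
      | some i => {z | z i = true} ∩ ⋂ j ∈ Finset.range i, {z | z j = false}
    have hS : ∀ o, MeasurableSet (S o) := fun o => by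
      have ht : ∀ i b, MeasurableSet {z : ℕ → Bool | z i = b} := fun i b =>
        measurable_pi_apply (X := fun _ : ℕ => Bool) i (measurableSet_singleton b)
      cases o
      exacts [MeasurableSet.iInter fun i => ht i _,
        (ht _ _).inter (Finset.measurableSet_biInter _ fun j _ => ht j _)]
    have e : (fun z : ℕ → Bool => if hz : ∃ i, z i = true then q (Nat.find hz) else q 0) ⁻¹' {p} =
        ⋃ o ∈ {o : Option ℕ | q (o.getD 0) = p}, S o := by
      ext z
      simp only [mem_preimage, mem_singleton_iff, mem_iUnion, mem_ofPred_eq, exists_prop]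
      by_cases hz : ∃ i, z i = true
      · rw [dif_pos hz]
        refine ⟨fun h => ⟨some (Nat.find hz), h, Nat.find_spec hz, mem_iInter₂.2 fun j hj =>
          eq_false_of_ne_true (Nat.find_min hz (Finset.mem_range.1 hj))⟩, ?_⟩
        rintro ⟨o, ho, hzo⟩
        cases o with
        | none =>
          obtain ⟨i, hi⟩ := hz
          exact absurd (mem_iInter.1 hzo i) (by simp [hi])
        | some i =>
          rwa [show Nat.find hz = i from (Nat.find_eq_iff hz).2 ⟨hzo.1, fun j hj => by
            simpa using mem_iInter₂.1 hzo.2 j (Finset.mem_range.2 hj)⟩]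
      · rw [dif_neg hz]
        refine ⟨fun h => ⟨none, h, mem_iInter.2 fun i => by
          simpa using fun h => hz ⟨i, h⟩⟩, ?_⟩
        rintro ⟨o, ho, hzo⟩
        cases o with
        | none => exact ho
        | some i => exact absurd ⟨i, hzo.1⟩ hz
    rw [e]
    exact MeasurableSet.biUnion (to_countable _) fun o _ => hS o

/-- Homogeneous sets for a property of the values at a set and its tail. -/
theorem exists_homogeneous {f : (ℕ → Bool) → Q} (hf : IsArray f) (P : Q → Q → Prop)
    {D : Set ℕ} (hD : D.Infinite) :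
    ∃ B ⊆ D, B.Infinite ∧ ((∀ C ⊆ B, C.Infinite → P (val f C) (val f (dropMin C))) ∨
      ∀ C ⊆ B, C.Infinite → ¬P (val f C) (val f (dropMin C))) := by
  have : PolishSpace (ℕ → Bool) := ⟨⟩
  have hm := (hf.prodMk hf.tail).measurableSet_preimage {p : Q × Q | P p.1 p.2}
  obtain ⟨H, hHD, hH, h⟩ := FA.Ellentuck.isCR_of_baireMeasurableSet
    (FA.Ellentuck.baireMeasurable_analytic_toCantor hm.analyticSet) ∅ D hD
  have hmem : ∀ C (hC : C ⊆ H) (hCi : C.Infinite),
      (⟨C, hCi⟩ : FA.Ellentuck.Pts) ∈ FA.Ellentuck.cube ∅ H :=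
    fun C hC hCi => ⟨by simp, by simpa [FA.Ellentuck.above_empty] using hC⟩
  have hval : ∀ C, C.boolIndicator ∈ (fun z => (f z, (f ∘ tailMap) z)) ⁻¹' {p : Q × Q | P p.1 p.2} ↔
      P (val f C) (val f (dropMin C)) := fun C => by
    simp [val, tailMap_boolIndicator]
  refine ⟨H, hHD, hH, ?_⟩
  rcases h with h | h
  exacts [.inl fun C hC hCi => (hval C).1 (h (hmem C hC hCi)),
    .inr fun C hC hCi hP => Set.disjoint_left.1 h (hmem C hC hCi) ((hval C).2 hP)]

end FA.Laver
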