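import Fermat.Agent.Laver.Minimal

/-!
# Codes for scattered orders form a better-quasi-order

A code is a point, a sum of two codes, or a sum along `ω` or `ω*` in which every listed code
recurs.  Their natural embeddability relation is a better-quasi-order: a minimal bad array would
give a bad array of children.
-/

set_option autoImplicit false

universe u

namespace FA.Laver

open Set Relation

/-- Codes for countable scattered orders. -/
inductive Code : Type where
  | point : Code
  | add : Code → Code → Code
  | sum : Bool → (ℕ → Code) → Code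

/-- The embeddability relation between codes. -/
inductive CodeLE : Code → Code → Prop where
  | point (c : Code) : CodeLE .point c
  | add {a b a' b' : Code} : CodeLE a a' → CodeLE b b' → CodeLE (.add a b) (.add a' b')
  | addLeft {x a b : Code} : CodeLE x a → CodeLE x (.add a b)
  | addRight {x a b : Code} : CodeLE x b → CodeLE x (.add a b)
  | sum {t : Bool} {f g : ℕ → Code} (h : ℕ → ℕ) :
      (∀ n, CodeLE (f n) (g (h n))) → CodeLE (.sum t f) (.sum t g)
  | sumTerm {x : Code} {t : Bool} {f : ℕ → Code} (n : ℕ) : CodeLE x (f n) → CodeLE x (.sum t f)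

/-- The immediate constituents of a code. -/
def Code.Part : Code → Code → Prop
  | _, .point => False
  | x, .add a b => x = a ∨ x = b
  | x, .sum _ f => ∃ n, x = f n

theorem Code.wellFounded_part : WellFounded Code.Part := by
  refine ⟨fun c => ?_⟩
  induction c with
  | point => exact Acc.intro _ fun x h => h.elim
  | add a b ha hb =>
    refine Acc.intro _ fun x h => ?_
    rcases h with rfl | rfl
    exacts [ha, hb]
  | sum t f ih =>
    refine Acc.intro _ fun x h => ?_
    obtain ⟨n, rfl⟩ := h
    exact ih n

theorem CodeLE.mono_part (x a b : Code) (h : CodeLE x a) (hab : Code.Part a b) : CodeLE x b := by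
  cases b with
  | point => exact hab.elim
  | add c d =>
    rcases hab with rfl | rfl
    exacts [.addLeft h, .addRight h]
  | sum t f =>
    obtain ⟨n, rfl⟩ := hab
    exact .sumTerm n h

theorem CodeLE.refl (c : Code) : CodeLE c c := by
  induction c with
  | point => exact .point _
  | add a b ha hb => exact .add ha hb
  | sum t f ih => exact .sum id ih

/-- The shape of a code. -/
def Code.shape : Code → Option (Option Bool)
  | .point => none
  | .add _ _ => some none
  | .sum t _ => some (some t)

/-- The left constituent. -/
def Code.left : Code → Code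
  | .add a _ => a
  | c => c

/-- The right constituent. -/
def Code.right : Code → Code
  | .add _ b => b
  | c => c

open Classical in
/-- A term of the first sum below no term of the second. -/
noncomputable def Code.badTerm : Code × Code → Code
  | (.sum _ f, .sum _ g) =>
    if h : ∃ n, ∀ m, ¬CodeLE (f n) (g m) then f (Nat.find h) else f 0
  | (c, _) => c

/-- **Codes are better-quasi-ordered.** -/
theorem isBQO_code : IsBQO CodeLE := by
  intro f₀ hf₀ D₀ hD₀ hbad₀
  obtain ⟨⟨D, hD, f, hf, hbad⟩, hmin⟩ :=
    exists_minimal Code.wellFounded_part CodeLE.mono_part ⟨D₀, hD₀, f₀, hf₀, hbad₀⟩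
  have hlower : ∀ (g : (ℕ → Bool) → Code) (B : Set ℕ), IsArray g → B ⊆ D → B.Infinite →
      IsBad CodeLE g B → (∀ C ⊆ B, C.Infinite → Code.Part (val g C) (val f C)) → False :=
    fun g B hg hB hBi hgb hlt => hmin ⟨B, empty_subset _, hB, hBi, g, hg, hgb,
      fun C hC hCi => TransGen.single (hlt C hC hCi)⟩
  -- the shape is constant on a large set
  have hshape : ∀ o : Option (Option Bool), ∀ B : Set ℕ, B.Infinite →
      ∃ B' ⊆ B, B'.Infinite ∧ ((∀ C ⊆ B', C.Infinite → (val f C).shape = o) ∨
        ∀ C ⊆ B', C.Infinite → (val f C).shape ≠ o) :=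
    fun o B hB => exists_homogeneous hf (fun c _ => c.shape = o) hB
  obtain ⟨B, hB, hBi, o, ho⟩ : ∃ B ⊆ D, B.Infinite ∧ ∃ o, ∀ C ⊆ B, C.Infinite →
      (val f C).shape = o := by
    obtain ⟨B₁, h₁, h₁i, h⟩ := hshape none D hD
    rcases h with h | hn
    · exact ⟨B₁, h₁, h₁i, _, h⟩
    obtain ⟨B₂, h₂, h₂i, h⟩ := hshape (some none) B₁ h₁i
    rcases h with h | ha
    · exact ⟨B₂, h₂.trans h₁, h₂i, _, h⟩
    obtain ⟨B₃, h₃, h₃i, h⟩ := hshape (some (some true)) B₂ h₂i
    rcases h with h | ht
    · exact ⟨B₃, h₃.trans (h₂.trans h₁), h₃i, _, h⟩
    refine ⟨B₃, h₃.trans (h₂.trans h₁), h₃i, some (some false), fun C hC hCi => ?_⟩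
    have := hn C (hC.trans (h₃.trans h₂)) hCi
    have := ha C (hC.trans h₃) hCi
    have := ht C hC hCi
    cases hs : (val f C).shape with
    | none => simp_all
    | some o => cases o with
      | none => simp_all
      | some t => cases t <;> simp_all
  have hnext : ∀ C ⊆ B, C.Infinite → (val f (dropMin C)).shape = o := fun C hC hCi =>
    ho _ ((dropMin_subset C).trans hC) (dropMin_infinite hCi)
  cases o with
  | none =>
    have h := ho B subset_rfl hBi
    cases hc : val f B with
    | point => exact hbad B hB hBi (hc ▸ .point _)
    | add a b => simp [hc, Code.shape] at h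
    | sum t g => simp [hc, Code.shape] at h
  | some o =>
    cases o with
    | none =>
      have hform : ∀ C ⊆ B, C.Infinite → ∃ a b, val f C = .add a b := fun C hC hCi => by
        cases hc : val f C with
        | add a b => exact ⟨a, b, rfl⟩
        | point => simpa [hc, Code.shape] using ho C hC hCi
        | sum t g => simpa [hc, Code.shape] using ho C hC hCi
      obtain ⟨B', hB', hB'i, h | h⟩ :=
        exists_homogeneous (hf.comp Code.left) CodeLE hBi
      · refine hlower (Code.right ∘ f) B' (hf.comp _) (hB'.trans hB) hB'i (fun C hC hCi hr => ?_)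
          fun C hC hCi => ?_
        · obtain ⟨a, b, hab⟩ := hform C (hC.trans hB') hCi
          obtain ⟨a', b', hab'⟩ :=
            hform _ ((dropMin_subset C).trans (hC.trans hB')) (dropMin_infinite hCi)
          refine hbad C (hC.trans (hB'.trans hB)) hCi ?_
          have h1 := h C hC hCi
          simp only [val, Function.comp_apply] at h1 hr hab hab'
          rw [hab, hab'] at h1 hr
          simp only [val, hab, hab']
          exact .add h1 hr
        · obtain ⟨a, b, hab⟩ := hform C (hC.trans hB') hCi
          simp only [val, Function.comp_apply] at hab ⊢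
          rw [hab]
          exact .inr rfl
      · refine hlower (Code.left ∘ f) B' (hf.comp _) (hB'.trans hB) hB'i h fun C hC hCi => ?_
        obtain ⟨a, b, hab⟩ := hform C (hC.trans hB') hCi
        simp only [val, Function.comp_apply] at hab ⊢
        rw [hab]
        exact .inl rfl
    | some t =>
      have hform : ∀ C ⊆ B, C.Infinite → ∃ g, val f C = .sum t g := fun C hC hCi => by
        cases hc : val f C with
        | sum t' g =>
          have h := ho C hC hCi
          simp only [hc, Code.shape, Option.some.injEq] at h
          exact ⟨g, h ▸ rfl⟩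
        | point => simpa [hc, Code.shape] using ho C hC hCi
        | add a b => simpa [hc, Code.shape] using ho C hC hCi
      have hterm : ∀ C ⊆ B, C.Infinite → ∀ g g', val f C = .sum t g →
          val f (dropMin C) = .sum t g' →
          ∃ n, Code.badTerm (val f C, val f (dropMin C)) = g n ∧ ∀ m, ¬CodeLE (g n) (g' m) := by
        intro C hC hCi g g' hg hg'
        have hex : ∃ n, ∀ m, ¬CodeLE (g n) (g' m) := by
          by_contra! hall
          choose k hk using hall
          exact hbad C (hC.trans hB) hCi (hg ▸ hg' ▸ .sum k hk)
        classical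
        refine ⟨Nat.find hex, ?_, Nat.find_spec hex⟩
        rw [hg, hg']
        exact dif_pos hex
      refine hlower (Code.badTerm ∘ fun z => (f z, f (tailMap z))) B
        ((hf.prodMk hf.tail).comp _) hB hBi (fun C hC hCi hr => ?_) fun C hC hCi => ?_
      · rw [val_pair, val_pair] at hr
        obtain ⟨g, hg⟩ := hform C hC hCi
        obtain ⟨g', hg'⟩ := hform _ ((dropMin_subset C).trans hC) (dropMin_infinite hCi)
        obtain ⟨g'', hg''⟩ := hform _
          (((dropMin_subset _).trans (dropMin_subset C)).trans hC)
          (dropMin_infinite (dropMin_infinite hCi))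
        obtain ⟨n, hn, hno⟩ := hterm C hC hCi g g' hg hg'
        obtain ⟨n', hn', -⟩ := hterm _ ((dropMin_subset C).trans hC) (dropMin_infinite hCi)
          g' g'' hg' hg''
        rw [hn, hn'] at hr
        exact hno n' hr
      · rw [val_pair]
        obtain ⟨g, hg⟩ := hform C hC hCi
        obtain ⟨g', hg'⟩ := hform _ ((dropMin_subset C).trans hC) (dropMin_infinite hCi)
        obtain ⟨n, hn, -⟩ := hterm C hC hCi g g' hg hg'
        rw [hn, hg]
        exact ⟨n, rfl⟩

end FA.Laver
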