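import Fermat.Agent.Laver.Orders
import Mathlib.Order.CountableDenseLinearOrder
import Mathlib.Algebra.Order.Ring.Rat

/-!
# Hausdorff's analysis of countable orders

Two points are related when every convex piece between them is exact.  The classes are convex
and exact and no two are adjacent, so an order which is not exact contains the rationals.
-/

set_option autoImplicit false

universe u

namespace FA.Laver

open Set

variable {α : Type u} [LinearOrder α]

/-- All convex pieces between the points are exact. -/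
def Close (x y : α) : Prop :=
  ∀ J : Set α, J.OrdConnected → J ⊆ uIcc x y → Exact J

theorem Close.refl (x : α) : Close x x := fun J _ hJ =>
  exact_of_subsingleton (by rw [uIcc_self] at hJ; exact subsingleton_singleton.anti hJ)

theorem Close.symm {x y : α} (h : Close x y) : Close y x := fun J hc hJ =>
  h J hc (uIcc_comm x y ▸ hJ)

theorem Close.of_subset {x y x' y' : α} (h : Close x y) (hs : uIcc x' y' ⊆ uIcc x y) :
    Close x' y' :=
  fun J hc hJ => h J hc (hJ.trans hs)

theorem Close.trans {x y z : α} (h : Close x y) (h' : Close y z) : Close x z := by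
  intro J hc hJ
  by_cases h1 : uIcc x z ⊆ uIcc x y
  · exact h J hc (hJ.trans h1)
  by_cases h2 : uIcc x z ⊆ uIcc y z
  · exact h' J hc (hJ.trans h2)
  have hy : y ∈ uIcc x z := by
    by_contra hy
    rw [mem_uIcc] at hy
    rw [uIcc_subset_uIcc_iff_mem] at h1 h2
    simp only [mem_uIcc] at h1 h2
    grind
  -- `y` separates `J`
  have key : ∀ (a b : α), a ≤ y → y ≤ b → Close a y → Close y b → J ⊆ Icc a b → Exact J := by
    intro a b hay hyb ha hb hsub
    rw [show J = (J ∩ Iio y) ∪ (J ∩ Ici y) by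
      rw [← inter_union_distrib_left, Iio_union_Ici, inter_univ]]
    refine (ha _ (hc.inter ordConnected_Iio) fun w hw => ?_).union
      (hb _ (hc.inter ordConnected_Ici) fun w hw => ?_) fun v hv w hw => hv.2.trans_le hw.2
    · rw [uIcc_of_le hay]
      exact ⟨(hsub hw.1).1, le_of_lt hw.2⟩
    · rw [uIcc_of_le hyb]
      exact ⟨hw.2, (hsub hw.1).2⟩
  rcases le_total x z with hxz | hzx
  · rw [uIcc_of_le hxz] at hy hJ
    exact key x z hy.1 hy.2 h h' hJ
  · rw [uIcc_of_ge hzx] at hy hJ
    exact key z x hy.1 hy.2 h'.symm h.symm hJ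

theorem close_ordConnected (x : α) : {y | Close x y}.OrdConnected :=
  ⟨fun a ha b hb w hw => by
    have h : Close a b := (Close.symm ha).trans hb
    refine Close.trans ha (h.of_subset ?_)
    rw [uIcc_of_le (hw.1.trans hw.2), uIcc_of_le hw.1]
    exact Icc_subset_Icc_right hw.2⟩

/-- Running choice in a direction. -/
theorem exists_cofinal [Countable α] {J : Set α} {p : α} (hp : p ∈ J) :
    ∃ q : ℕ → α, Monotone q ∧ (∀ n, q n ∈ J ∧ p ≤ q n) ∧ ∀ x ∈ J, p ≤ x → ∃ n, x ≤ q n := by
  classical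
  have : Nonempty α := ⟨p⟩
  obtain ⟨e, he⟩ := exists_surjective_nat α
  let pick : ℕ → α := fun n => if e n ∈ J ∧ p ≤ e n then e n else p
  let q : ℕ → α := fun n => Nat.rec (pick 0) (fun n r => max r (pick (n + 1))) n
  have hpick : ∀ n, pick n ∈ J ∧ p ≤ pick n := fun n => by
    by_cases h : e n ∈ J ∧ p ≤ e n <;> simp [pick, h, hp]
  have hge : ∀ n, pick n ≤ q n := fun n => by
    cases n with
    | zero => exact le_rfl
    | succ n => exact le_max_right _ _
  refine ⟨q, monotone_nat_of_le_succ fun n => le_max_left _ _, fun n => ?_, fun x hx hpx => ?_⟩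
  · induction n with
    | zero => exact hpick 0
    | succ n ih =>
      rcases max_choice (q n) (pick (n + 1)) with h | h
      · exact (show q (n + 1) = q n from h) ▸ ih
      · exact (show q (n + 1) = pick (n + 1) from h) ▸ hpick _
  · obtain ⟨n, rfl⟩ := he x
    exact ⟨n, le_of_eq_of_le (by simp [pick, hx, hpx]) (hge n)⟩

/-- **A convex set of mutually close points is exact.** -/
theorem exact_of_close [Countable α] {J : Set α} (hJ : J.OrdConnected)
    (h : ∀ x ∈ J, ∀ y ∈ J, Close x y) : Exact J := by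
  rcases J.eq_empty_or_nonempty with rfl | ⟨p, hp⟩
  · exact .inl rfl
  obtain ⟨q, hq, hqJ, hqc⟩ := exists_cofinal hp
  have : Countable αᵒᵈ := ‹Countable α›
  obtain ⟨r, hr, hrJ, hrc⟩ := exists_cofinal (α := αᵒᵈ) (J := OrderDual.ofDual ⁻¹' J)
    (p := OrderDual.toDual p) hp
  let r' : ℕ → α := fun n => OrderDual.ofDual (r n)
  have hr' : Antitone r' := fun a b hab => hr hab
  -- the part from `p` on
  have hup : Exact (J ∩ Ici p) := by
    let A : ℕ → Set α := fun n => J ∩ {x | p ≤ x ∧ x ≤ q n ∧ ∀ m < n, q m < x}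
    have hA : ∀ n, Exact (A n) := fun n => by
      refine h p hp (q n) (hqJ n).1 _ (hJ.inter ⟨fun a ha b hb w hw => ⟨ha.1.trans hw.1,
        hw.2.trans hb.2.1, fun m hm => (ha.2.2 m hm).trans_le hw.1⟩⟩) fun w hw => ?_
      rw [uIcc_of_le (hqJ n).2]
      exact ⟨hw.2.1, hw.2.2.1⟩
    have e : J ∩ Ici p = ⋃ n, A n := by
      classical
      refine subset_antisymm (fun x hx => ?_) (iUnion_subset fun n x hx => ⟨hx.1, hx.2.1⟩)
      have hex : ∃ n, x ≤ q n := hqc x hx.1 hx.2
      exact mem_iUnion.2 ⟨Nat.find hex, hx.1, hx.2, Nat.find_spec hex,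
        fun m hm => not_le.1 (Nat.find_min hex hm)⟩
    rw [e]
    exact exact_iUnion (t := true) (fun k l hkl x hx y hy =>
      lt_of_le_of_lt hx.2.2.1 (hy.2.2.2 k hkl)) hA
  -- the part before `p`
  have hdown : Exact (J ∩ Iio p) := by
    let A : ℕ → Set α := fun n => J ∩ {x | x < p ∧ r' n ≤ x ∧ ∀ m < n, x < r' m}
    have hA : ∀ n, Exact (A n) := fun n => by
      refine h (r' n) (hrJ n).1 p hp _ (hJ.inter ⟨fun a ha b hb w hw => ⟨hw.2.trans_lt hb.1,
        ha.2.1.trans hw.1, fun m hm => hw.2.trans_lt (hb.2.2 m hm)⟩⟩) fun w hw => ?_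
      rw [uIcc_of_le (show r' n ≤ p from (hrJ n).2)]
      exact ⟨hw.2.2.1, hw.2.1.le⟩
    have e : J ∩ Iio p = ⋃ n, A n := by
      classical
      refine subset_antisymm (fun x hx => ?_) (iUnion_subset fun n x hx => ⟨hx.1, hx.2.1⟩)
      have hex : ∃ n, r' n ≤ x := hrc (OrderDual.toDual x) hx.1 hx.2.le
      exact mem_iUnion.2 ⟨Nat.find hex, hx.1, hx.2, Nat.find_spec hex,
        fun m hm => not_le.1 (Nat.find_min hex hm)⟩
    rw [e]
    exact exact_iUnion (t := false) (fun k l hkl x hx y hy =>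
      lt_of_lt_of_le (hy.2.2.2 k hkl) hx.2.2.1) hA
  rw [show J = (J ∩ Iio p) ∪ (J ∩ Ici p) by
    rw [← inter_union_distrib_left, Iio_union_Ici, inter_univ]]
  exact hdown.union hup fun x hx y hy => hx.2.trans_le hy.2

/-- **Hausdorff.** A countable linear order is exact or contains the rationals. -/
theorem exact_univ_or_rat_embedding [Countable α] :
    Exact (univ : Set α) ∨ Nonempty (ℚ ↪o α) := by
  classical
  by_cases hall : ∀ x y : α, Close x y
  · exact .inl (exact_of_close ordConnected_univ fun x _ y _ => hall x y)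
  push Not at hall
  obtain ⟨x₀, y₀, hxy⟩ := hall
  obtain ⟨e, he⟩ := Countable.exists_injective_nat α
  let R : Set α := {x | ∀ y, Close x y → e x ≤ e y}
  have hrep : ∀ x, ∃ r ∈ R, Close x r := fun x => by
    obtain ⟨_, ⟨r, hr, rfl⟩, hmin⟩ :=
      wellFounded_lt.has_min (e '' {y | Close x y}) ⟨_, x, Close.refl x, rfl⟩
    exact ⟨r, fun y hy => not_lt.1 (hmin _ ⟨y, hr.trans hy, rfl⟩), hr⟩
  have hfar : ∀ x ∈ R, ∀ y ∈ R, Close x y → x = y := fun x hx y hy hc =>
    he ((hx y hc).antisymm (hy x hc.symm))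
  have hdense : DenselyOrdered R := ⟨by
    rintro ⟨x, hx⟩ ⟨y, hy⟩ (hlt : x < y)
    obtain ⟨z, hz, hzx, hzy⟩ : ∃ z ∈ Icc x y, ¬Close x z ∧ ¬Close z y := by
      by_contra! hno
      refine hlt.ne (hfar x hx y hy fun J hc hJ => ?_)
      rw [uIcc_of_le hlt.le] at hJ
      have h1 : Exact (J ∩ {w | Close x w}) := exact_of_close (hc.inter (close_ordConnected x))
        fun a ha b hb => ha.2.symm.trans hb.2
      have h2 : Exact (J ∩ {w | Close y w}) := exact_of_close (hc.inter (close_ordConnected y))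
        fun a ha b hb => ha.2.symm.trans hb.2
      have hne : ¬Close x y := fun h => hlt.ne (hfar x hx y hy h)
      rw [show J = (J ∩ {w | Close x w}) ∪ (J ∩ {w | Close y w}) from
        subset_antisymm (fun w hw => by
          by_cases hxw : Close x w
          exacts [.inl ⟨hw, hxw⟩, .inr ⟨hw, (hno w (hJ hw) hxw).symm⟩])
          (union_subset inter_subset_left inter_subset_left)]
      refine h1.union h2 fun a ha b hb => lt_of_not_ge fun hba => hne ?_
      exact ((close_ordConnected x).out (Close.refl x) ha.2 ⟨(hJ hb.1).1, hba⟩).trans hb.2.symm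
    obtain ⟨r, hr, hzr⟩ := hrep z
    refine ⟨⟨r, hr⟩, show x < r from ?_, show r < y from ?_⟩
    · refine lt_of_not_ge fun hrx => hzx ?_
      exact (Close.symm ((close_ordConnected z).out hzr (Close.refl z) ⟨hrx, hz.1⟩))
    · refine lt_of_not_ge fun hyr => hzy ?_
      exact (close_ordConnected z).out (Close.refl z) hzr ⟨hz.2, hyr⟩⟩
  have : Nontrivial R := by
    obtain ⟨r, hr, hxr⟩ := hrep x₀
    obtain ⟨r', hr', hyr⟩ := hrep y₀
    exact ⟨⟨r, hr⟩, ⟨r', hr'⟩, fun he => hxy (hxr.trans (Subtype.mk.inj he ▸ hyr.symm))⟩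
  obtain ⟨g⟩ := Order.embedding_from_countable_to_dense ℚ R
  exact .inr ⟨g.trans (OrderEmbedding.subtype _)⟩

end FA.Laver
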