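import Fermat.Agent.Laver.Arrays

/-!
# The minimal bad array lemma

If every bad array could be strictly lowered somewhere, repeated lowering along a fusion would
produce a single infinite set on which the values descend for ever.
-/

set_option autoImplicit false

universe u

namespace FA.Laver

open Set MeasureTheory Relation

variable {Q : Type u} (r child : Q → Q → Prop)

/-- A bad array with its domain. -/
structure BadArray where
  dom : Set ℕ
  infinite : dom.Infinite
  fn : (ℕ → Bool) → Q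
  isArray : IsArray fn
  bad : IsBad r fn dom

variable {r}

/-- A smaller domain still containing `F`, with values which have only gone down. -/
def BadArray.Below (F : Set ℕ) (T S : BadArray r) : Prop :=
  F ⊆ T.dom ∧ T.dom ⊆ S.dom ∧
    ∀ C ⊆ T.dom, C.Infinite → ReflTransGen child (val T.fn C) (val S.fn C)

/-- The values can be lowered strictly on all infinite subsets of a set containing `s`. -/
def BadArray.CanLower (s : Set ℕ) (S : BadArray r) : Prop :=
  ∃ B, s ⊆ B ∧ B ⊆ S.dom ∧ B.Infinite ∧ ∃ g, IsArray g ∧ IsBad r g B ∧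
    ∀ C ⊆ B, C.Infinite → TransGen child (val g C) (val S.fn C)

/-- Lowering stays possible above `F`. -/
def BadArray.Persistent (s F : Set ℕ) (S : BadArray r) : Prop :=
  ∀ T : BadArray r, T.Below child F S → T.CanLower child s

variable {child}

theorem BadArray.below_refl {F : Set ℕ} {S : BadArray r} (h : F ⊆ S.dom) : S.Below child F S :=
  ⟨h, subset_rfl, fun _ _ _ => ReflTransGen.refl⟩

theorem BadArray.Below.trans {F G : Set ℕ} {U T S : BadArray r} (h : U.Below child F T)
    (h' : T.Below child G S) : U.Below child F S :=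
  ⟨h.1, h.2.1.trans h'.2.1, fun C hC hi => (h.2.2 C hC hi).trans (h'.2.2 C (hC.trans h.2.1) hi)⟩

theorem BadArray.CanLower.of_below {F s : Set ℕ} {T S : BadArray r} (h : T.CanLower child s)
    (hb : T.Below child F S) : S.CanLower child s := by
  obtain ⟨B, hsB, hB, hi, g, hg, hbad, hlt⟩ := h
  exact ⟨B, hsB, hB.trans hb.2.1, hi, g, hg, hbad, fun C hC hCi =>
    TransGen.trans_left (hlt C hC hCi) (hb.2.2 C (hC.trans hB) hCi)⟩

/-- Monotonicity of a relation along the ranking. -/
theorem rel_mono (hmono : ∀ x a b, r x a → child a b → r x b) {x a b : Q} (h : r x a)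
    (hab : ReflTransGen child a b) : r x b := by
  induction hab with
  | refl => exact h
  | tail _ hbc ih => exact hmono _ _ _ ih hbc

/-- Lowering on `B` leaves a bad array on `F ∪ B`. -/
theorem BadArray.exists_merge (hmono : ∀ x a b, r x a → child a b → r x b) (S : BadArray r)
    {F B : Set ℕ} (hF : F ⊆ S.dom) (hB : B ⊆ S.dom) (hBi : B.Infinite) {g : (ℕ → Bool) → Q}
    (hg : IsArray g) (hbad : IsBad r g B)
    (hlt : ∀ C ⊆ B, C.Infinite → TransGen child (val g C) (val S.fn C)) :
    ∃ T : BadArray r, T.Below child F S ∧ T.dom ⊆ F ∪ B ∧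
      ∀ C ⊆ B, C.Infinite → TransGen child (val T.fn C) (val S.fn C) := by
  classical
  let h := (within B).piecewise g S.fn
  have hin : ∀ C ⊆ B, val h C = val g C := fun C hC =>
    piecewise_eq_of_mem (within B) g S.fn (boolIndicator_mem_within.2 hC)
  have hout : ∀ C, ¬C ⊆ B → val h C = val S.fn C := fun C hC =>
    piecewise_eq_of_notMem (within B) g S.fn fun h => hC (boolIndicator_mem_within.1 h)
  have hle : ∀ C, C.Infinite → ReflTransGen child (val h C) (val S.fn C) := fun C hCi => by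
    by_cases hC : C ⊆ B
    · rw [hin C hC]
      exact (hlt C hC hCi).to_reflTransGen
    · rw [hout C hC]
  refine ⟨⟨F ∪ B, hBi.mono subset_union_right, h, hg.piecewise S.isArray (measurableSet_within B),
    fun C hC hCi hr => ?_⟩, ⟨subset_union_left, union_subset hF hB, fun C _ hCi => hle C hCi⟩,
    subset_rfl, fun C hC hCi => hin C hC ▸ hlt C hC hCi⟩
  by_cases hCB : C ⊆ B
  · rw [hin C hCB, hin _ ((dropMin_subset C).trans hCB)] at hr
    exact hbad C hCB hCi hr
  · rw [hout C hCB] at hr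
    exact S.bad C (hC.trans (union_subset hF hB)) hCi
      (rel_mono hmono hr (hle _ (dropMin_infinite hCi)))

/-- **Fusion.** A descending sequence of bad arrays keeping longer finite sets has a limit. -/
theorem exists_limit (hwf : WellFounded child) (T : ℕ → BadArray r) (F : ℕ → Set ℕ)
    (hFmono : ∀ k, F k ⊆ F (k + 1)) (hinf : (⋃ k, F k).Infinite) (hF : ∀ k, F k ⊆ (T k).dom)
    (hT : ∀ k, (T (k + 1)).Below child (F k) (T k)) :
    ∃ L : BadArray r, L.dom = ⋃ k, F k ∧ ∀ k, L.Below child ∅ (T k) := by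
  classical
  have hdom : ∀ k l, k ≤ l → (T l).dom ⊆ (T k).dom := fun k l hkl => by
    induction hkl with
    | refl => exact subset_rfl
    | @step l _ ih => exact (hT l).2.1.trans ih
  have hFle : ∀ k l, k ≤ l → F k ⊆ F l := fun k l hkl => by
    induction hkl with
    | refl => exact subset_rfl
    | @step l _ ih => exact ih.trans (hFmono l)
  have hsub : ∀ k, (⋃ l, F l) ⊆ (T k).dom := fun k => iUnion_subset fun l =>
    ((hFle l _ (le_max_left l k)).trans (hF _)).trans (hdom k _ (le_max_right l k))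
  let st : ℕ → Set (ℕ → Bool) := fun N => ⋂ i, {z | N ≤ i → (T i).fn z = (T N).fn z}
  let lim : (ℕ → Bool) → Q := fun z =>
    if h : ∃ N, z ∈ st N then (T (Nat.find h)).fn z else (T 0).fn z
  have hstab : ∀ C ⊆ ⋃ l, F l, C.Infinite → ∃ N, C.boolIndicator ∈ st N := by
    intro C hC hCi
    obtain ⟨_, ⟨N, rfl⟩, hN⟩ := (hwf.transGen).has_min
      (range fun k => val (T k).fn C) (range_nonempty _)
    have hle : ∀ i, N ≤ i → ReflTransGen child (val (T i).fn C) (val (T N).fn C) := fun i hi => by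
      induction hi with
      | refl => exact ReflTransGen.refl
      | @step i _ ih => exact ((hT i).2.2 C (hC.trans (hsub _)) hCi).trans ih
    refine ⟨N, mem_iInter.2 fun i hi => ?_⟩
    rcases reflTransGen_iff_eq_or_transGen.1 (hle i hi) with h | h
    · exact h.symm
    · exact absurd h (hN _ (mem_range_self i))
  have hval : ∀ C ⊆ ⋃ l, F l, C.Infinite → ∃ N, ∀ i, N ≤ i → val lim C = val (T i).fn C := by
    intro C hC hCi
    have h := hstab C hC hCi
    refine ⟨Nat.find h, fun i hi => ?_⟩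
    rw [val, show lim C.boolIndicator = (T (Nat.find h)).fn C.boolIndicator from dif_pos h]
    exact (mem_iInter.1 (Nat.find_spec h) i hi).symm
  have harray : IsArray lim := by
    refine ⟨(countable_iUnion fun k => (T k).isArray.1).mono ?_, fun q => ?_⟩
    · rintro _ ⟨z, rfl⟩
      by_cases h : ∃ N, z ∈ st N
      · exact mem_iUnion.2 ⟨Nat.find h, z,
          (show lim z = (T (Nat.find h)).fn z from dif_pos h).symm⟩
      · exact mem_iUnion.2 ⟨0, z, (show lim z = (T 0).fn z from dif_neg h).symm⟩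
    · have hst : ∀ N, MeasurableSet (st N) := fun N => MeasurableSet.iInter fun i => by
        by_cases hi : N ≤ i
        · simp only [hi, true_implies]
          exact ((T i).isArray.prodMk (T N).isArray).measurableSet_preimage {p | p.1 = p.2}
        · simp [hi]
      have e : lim ⁻¹' {q} = (⋃ N, (st N ∩ ⋂ M ∈ Finset.range N, (st M)ᶜ) ∩ (T N).fn ⁻¹' {q}) ∪
          ((⋂ N, (st N)ᶜ) ∩ (T 0).fn ⁻¹' {q}) := by
        ext z
        simp only [lim, mem_preimage, mem_singleton_iff, mem_union, mem_iUnion, mem_inter_iff,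
          mem_iInter, mem_compl_iff, Finset.mem_range]
        by_cases h : ∃ N, z ∈ st N
        · rw [dif_pos h]
          refine ⟨fun hq => .inl ⟨_, ⟨Nat.find_spec h, fun M hM => Nat.find_min h hM⟩, hq⟩, ?_⟩
          rintro (⟨N, ⟨hN, hmin⟩, hq⟩ | ⟨hno, -⟩)
          · rwa [(Nat.find_eq_iff h).2 ⟨hN, hmin⟩]
          · exact absurd h (by simpa using hno)
        · rw [dif_neg h]
          simp only [not_exists] at h
          simp [h]
      rw [e]
      exact (MeasurableSet.iUnion fun N => ((hst N).inter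
        (Finset.measurableSet_biInter _ fun M _ => (hst M).compl)).inter ((T N).isArray.2 q)).union
        ((MeasurableSet.iInter fun N => (hst N).compl).inter ((T 0).isArray.2 q))
  refine ⟨⟨⋃ l, F l, hinf, lim, harray, fun C hC hCi => ?_⟩, rfl,
    fun k => ⟨empty_subset _, hsub k, fun C hC hCi => ?_⟩⟩
  · obtain ⟨N, hN⟩ := hval C hC hCi
    obtain ⟨M, hM⟩ := hval _ ((dropMin_subset C).trans hC) (dropMin_infinite hCi)
    rw [hN (max N M) (le_max_left _ _), hM (max N M) (le_max_right _ _)]
    exact (T _).bad C (hC.trans (hsub _)) hCi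
  · obtain ⟨N, hN⟩ := hval C hC hCi
    rw [hN (max N k) (le_max_left _ _)]
    have : ∀ i, k ≤ i → ReflTransGen child (val (T i).fn C) (val (T k).fn C) := fun i hi => by
      induction hi with
      | refl => exact ReflTransGen.refl
      | @step i _ ih => exact ((hT i).2.2 C (hC.trans (hsub _)) hCi).trans ih
    exact this _ (le_max_right _ _)

/-- The descent step: lower once, then find a fresh point at which lowering persists. -/
theorem exists_next (hwf : WellFounded child) (hmono : ∀ x a b, r x a → child a b → r x b)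
    {S : BadArray r} {s F : Set ℕ} (hF : F.Finite) (hFS : F ⊆ S.dom)
    (hP : S.Persistent child s F) :
    ∃ (T : BadArray r) (B G : Set ℕ) (n : ℕ), s ⊆ B ∧ n ∈ B ∧ n ∉ F ∧ T.dom ⊆ F ∪ B ∧
      G.Finite ∧ F ⊆ G ∧ n ∈ G ∧ G ⊆ T.dom ∧ T.Persistent child (insert n s) G ∧
      T.Below child F S ∧
      ∀ C ⊆ B, C ⊆ T.dom → C.Infinite → TransGen child (val T.fn C) (val S.fn C) := by
  classical
  obtain ⟨B, hsB, hB, hBi, g, hg, hbad, hlt⟩ := hP S (BadArray.below_refl hFS)
  obtain ⟨S₁, hS₁, hS₁d, hS₁lt⟩ := S.exists_merge hmono hFS hB hBi hg hbad hlt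
  suffices h : ∃ (T : BadArray r) (G : Set ℕ) (n : ℕ), T.Below child F S₁ ∧ G.Finite ∧
      F ⊆ G ∧ n ∈ G ∧ n ∉ F ∧ G ⊆ T.dom ∧ T.Persistent child (insert n s) G by
    obtain ⟨T, G, n, hT, hG, hFG, hnG, hnF, hGT, hTP⟩ := h
    refine ⟨T, B, G, n, hsB, (hS₁d (hT.2.1 (hGT hnG))).resolve_left hnF, hnF,
      hT.2.1.trans hS₁d, hG, hFG, hnG, hGT, hTP, hT.trans hS₁, fun C hC hCT hCi => ?_⟩
    exact TransGen.trans_right (hT.2.2 C hCT hCi) (hS₁lt C hC hCi)
  by_contra! hno
  -- otherwise fusion exhausts every fresh point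
  let State := {p : BadArray r × Set ℕ // p.2.Finite ∧ F ⊆ p.2 ∧ p.2 ⊆ p.1.dom ∧
    p.1.Below child F S₁}
  have hstep : ∀ p : State, ∃ (q : State) (n : ℕ), n ∉ p.1.2 ∧ q.1.2 = insert n p.1.2 ∧
      q.1.1.Below child p.1.2 p.1.1 ∧ ¬q.1.1.CanLower child (insert n s) := by
    rintro ⟨⟨T, G⟩, hG, hFG, hGT, hT⟩
    obtain ⟨n, hn, hnG⟩ := (T.infinite.sdiff hG).nonempty
    have hsub : insert n G ⊆ T.dom := insert_subset hn hGT
    have h := hno T (insert n G) n hT (hG.insert n) (hFG.trans (subset_insert _ _))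
      (mem_insert _ _) (fun h => hnG (hFG h)) hsub
    simp only [BadArray.Persistent, not_forall] at h
    obtain ⟨U, hU, hUno⟩ := h
    exact ⟨⟨(U, insert n G), hG.insert n, hFG.trans (subset_insert _ _), hU.1,
      ⟨hFG.trans ((subset_insert _ _).trans hU.1), (hU.trans hT).2⟩⟩, n, hnG, rfl,
      ⟨(subset_insert _ _).trans hU.1, hU.2⟩, hUno⟩
  choose next m hm hnext hbelow hex using hstep
  let p : ℕ → State := fun k =>
    Nat.rec ⟨(S₁, F), hF, subset_rfl, hS₁.1, BadArray.below_refl hS₁.1⟩ (fun _ q => next q) k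
  have hsucc : ∀ k, (p (k + 1)).1.2 = insert (m (p k)) (p k).1.2 := fun k => hnext (p k)
  have hGmono : ∀ k l, k ≤ l → (p k).1.2 ⊆ (p l).1.2 := fun k l hkl => by
    induction hkl with
    | refl => exact subset_rfl
    | @step l _ ih => exact ih.trans (hsucc l ▸ subset_insert _ _)
  have hinj : Function.Injective fun k => m (p k) := by
    intro k l hkl
    change m (p k) = m (p l) at hkl
    by_contra hne
    rcases lt_or_gt_of_ne hne with h | h
    · exact hm (p l) (hkl ▸ hGmono (k + 1) l h (hsucc k ▸ mem_insert _ _))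
    · exact hm (p k) (hkl.symm ▸ hGmono (l + 1) k h (hsucc l ▸ mem_insert _ _))
  have hinf : (⋃ k, (p k).1.2).Infinite := (infinite_range_of_injective hinj).mono
    (range_subset_iff.2 fun k => mem_iUnion.2 ⟨k + 1, hsucc k ▸ mem_insert _ _⟩)
  obtain ⟨L, hLd, hL⟩ := exists_limit hwf (fun k => (p k).1.1) (fun k => (p k).1.2)
    (fun k => hGmono k _ (Nat.le_succ k)) hinf (fun k => (p k).2.2.2.1) fun k => hbelow (p k)
  have hLS : L.Below child F S₁ :=
    ⟨hLd ▸ subset_iUnion (fun k => (p k).1.2) 0, (hL 0).2⟩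
  obtain ⟨B', hsB', hB', hB'i, g', hg', hbad', hlt'⟩ := hP L (hLS.trans hS₁)
  obtain ⟨x, hxB, hxF⟩ := (hB'i.sdiff hF).nonempty
  have hcover : ∀ k, (p k).1.2 ⊆ F ∪ range fun l => m (p l) := fun k => by
    induction k with
    | zero => exact subset_union_left
    | succ k ih => exact hsucc k ▸ insert_subset (.inr (mem_range_self k)) ih
  obtain ⟨k, hk⟩ := mem_iUnion.1 (hLd ▸ hB' hxB)
  obtain ⟨l, rfl⟩ := (hcover k hk).resolve_left hxF
  have hlow : L.CanLower child (insert (m (p l)) s) :=
    ⟨B', insert_subset hxB hsB', hB', hB'i, g', hg', hbad', hlt'⟩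
  exact hex (p l) (hlow.of_below (hL (l + 1)))

/-- **The minimal bad array lemma.** -/
theorem exists_minimal (hwf : WellFounded child) (hmono : ∀ x a b, r x a → child a b → r x b)
    (S₀ : BadArray r) : ∃ S : BadArray r, ¬S.CanLower child ∅ := by
  classical
  by_contra! hall
  let State := {q : BadArray r × Set ℕ × Set ℕ // q.2.2.Finite ∧
    q.2.2 ⊆ q.1.dom ∧ q.1.Persistent child q.2.1 q.2.2}
  have hstep : ∀ q : State, ∃ (q' : State) (B : Set ℕ) (n : ℕ), q.1.2.1 ⊆ B ∧ n ∈ B ∧
      n ∉ q.1.2.2 ∧ q'.1.1.dom ⊆ q.1.2.2 ∪ B ∧ q.1.2.2 ⊆ q'.1.2.2 ∧ n ∈ q'.1.2.2 ∧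
      q'.1.2.1 = insert n q.1.2.1 ∧ q'.1.1.Below child q.1.2.2 q.1.1 ∧
      ∀ C ⊆ B, C ⊆ q'.1.1.dom → C.Infinite →
        TransGen child (val q'.1.1.fn C) (val q.1.1.fn C) := by
    rintro ⟨⟨S, s, F⟩, hF, hFS, hP⟩
    obtain ⟨T, B, G, n, h1, h2, h3, h4, h5, h6, h7, h8, h9, h10, h11⟩ :=
      exists_next hwf hmono hF hFS hP
    exact ⟨⟨(T, insert n s, G), h5, h8, h9⟩, B, n, h1, h2, h3,
      h4, h6, h7, rfl, h10, h11⟩
  choose next B m hsB hmB hmF hdom hFF hmG hs hbelow hlt using hstep
  let q : ℕ → State := fun k => Nat.rec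
    ⟨(S₀, ∅, ∅), finite_empty, empty_subset _, fun T _ => hall T⟩
    (fun _ q => next q) k
  let n : ℕ → ℕ := fun k => m (q k)
  have hdom' : ∀ k l, k ≤ l → (q l).1.1.dom ⊆ (q k).1.1.dom := fun k l hkl => by
    induction hkl with
    | refl => exact subset_rfl
    | @step l _ ih => exact (hbelow (q l)).2.1.trans ih
  have hF' : ∀ k l, k ≤ l → (q k).1.2.2 ⊆ (q l).1.2.2 := fun k l hkl => by
    induction hkl with
    | refl => exact subset_rfl
    | @step l _ ih => exact ih.trans (hFF (q l))
  have hs' : ∀ k l, k < l → n k ∈ (q l).1.2.1 := fun k l hkl => by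
    induction hkl with
    | refl => exact (hs (q k)).ge (mem_insert _ _)
    | @step l _ ih => exact (hs (q l)).ge (mem_insert_of_mem _ ih)
  have hin : ∀ i k, n i ∈ (q k).1.1.dom := fun i k =>
    hdom' k _ (le_max_right (i + 1) k)
      ((q _).2.2.1 (hF' (i + 1) _ (le_max_left (i + 1) k) (hmG (q i))))
  have hfresh : ∀ i k, i < k → n i ≠ n k := fun i k hik he =>
    hmF (q k) (show n k ∈ (q k).1.2.2 from he ▸ hF' (i + 1) k hik (hmG (q i)))
  let C := range n
  have hC : C.Infinite := infinite_range_of_injective fun i k he => by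
    by_contra hne
    rcases lt_or_gt_of_ne hne with h | h
    exacts [hfresh i k h he, hfresh k i h he.symm]
  have hCB : ∀ k, C ⊆ B (q k) := fun k => range_subset_iff.2 fun i => by
    rcases lt_trichotomy i k with h | rfl | h
    · exact hsB (q k) (hs' i k h)
    · exact hmB (q i)
    · refine (hdom (q k) (hin i (k + 1))).resolve_left fun hF => ?_
      exact hmF (q i) (hF' k i h.le hF)
  have hdesc : ∀ k, TransGen child (val (q (k + 1)).1.1.fn C) (val (q k).1.1.fn C) := fun k =>
    hlt (q k) C (hCB k) (range_subset_iff.2 fun i => hin i (k + 1)) hC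
  exact (wellFounded_iff_isEmpty_descending_chain.1 hwf.transGen).false
    ⟨fun k => val (q k).1.1.fn C, hdesc⟩

end FA.Laver
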