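import Fermat.Agent.Laver.Codes
import Mathlib.Data.Nat.Nth
import Mathlib.Order.Interval.Set.OrdConnected
import Mathlib.Order.Interval.Set.UnorderedInterval

/-!
# Orders described by codes

An order lies above or below a code, and is exact when both happen; exact orders are closed
under sums along `ω` and `ω*`, because codes are well-quasi-ordered.
-/

set_option autoImplicit false

universe u v

namespace FA.Laver

open Set

variable {α : Type u} [LinearOrder α] {β : Type v} [LinearOrder β]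

/-- The order in a given direction. -/
def Later (t : Bool) (x y : α) : Prop :=
  if t then x < y else y < x

/-- A sequence of sets arranged in the given direction. -/
def Separated (t : Bool) (A : ℕ → Set α) : Prop :=
  ∀ k l, k < l → ∀ x ∈ A k, ∀ y ∈ A l, Later t x y

/-- The set embeds into the order described by the code. -/
def Above : Code → Set α → Prop
  | .point, S => S.Subsingleton
  | .add a b, S => ∃ A B, S ⊆ A ∪ B ∧ (∀ x ∈ A, ∀ y ∈ B, x < y) ∧ Above a A ∧ Above b B
  | .sum t f, S => ∃ A : ℕ → Set α, S ⊆ ⋃ k, A k ∧ Separated t A ∧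
      ∀ k, Above (f (Nat.unpair k).1) (A k)

/-- The order described by the code embeds into the set. -/
def Under : Code → Set α → Prop
  | .point, S => S.Nonempty
  | .add a b, S => ∃ A B, A ⊆ S ∧ B ⊆ S ∧ (∀ x ∈ A, ∀ y ∈ B, x < y) ∧ Under a A ∧ Under b B
  | .sum t f, S => ∃ A : ℕ → Set α, (∀ k, A k ⊆ S) ∧ Separated t A ∧
      ∀ k, Under (f (Nat.unpair k).1) (A k)

theorem Above.mono {c : Code} {S S' : Set α} (h : Above c S) (hS : S' ⊆ S) : Above c S' := by
  cases c with
  | point => exact Set.Subsingleton.anti h hS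
  | add a b =>
    obtain ⟨A, B, hsub, h⟩ := h
    exact ⟨A, B, hS.trans hsub, h⟩
  | sum t f =>
    obtain ⟨A, hsub, h⟩ := h
    exact ⟨A, hS.trans hsub, h⟩

theorem above_empty (c : Code) : Above c (∅ : Set α) := by
  induction c with
  | point => exact subsingleton_empty
  | add a b ha hb => exact ⟨∅, ∅, empty_subset _, fun x hx => hx.elim, ha, hb⟩
  | sum t f ih =>
    exact ⟨fun _ => ∅, empty_subset _, fun k l _ x hx => hx.elim, fun k => ih _⟩

theorem Under.mono {c : Code} {S S' : Set α} (h : Under c S) (hS : S ⊆ S') : Under c S' := by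
  cases c with
  | point => exact Set.Nonempty.mono hS h
  | add a b =>
    obtain ⟨A, B, hA, hB, h⟩ := h
    exact ⟨A, B, hA.trans hS, hB.trans hS, h⟩
  | sum t f =>
    obtain ⟨A, hA, h⟩ := h
    exact ⟨A, fun k => (hA k).trans hS, h⟩

theorem exists_strictMono_unpair (h : ℕ → ℕ) :
    ∃ l : ℕ → ℕ, StrictMono l ∧ ∀ k, (Nat.unpair (l k)).1 = h k := by
  let l : ℕ → ℕ := fun k => Nat.rec (Nat.pair (h 0) 0) (fun k p => Nat.pair (h (k + 1)) (p + 1)) k
  refine ⟨l, strictMono_nat_of_lt_succ fun k => ?_, fun k => ?_⟩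
  · exact (Nat.lt_succ_self (l k)).trans_le (Nat.right_le_pair _ _)
  · cases k <;> simp [l]

theorem Separated.comp {t : Bool} {A : ℕ → Set α} (h : Separated t A) {l : ℕ → ℕ}
    (hl : StrictMono l) : Separated t fun k => A (l k) :=
  fun _ _ hkl => h _ _ (hl hkl)

/-- Smaller codes lie below whatever larger ones do. -/
theorem Under.of_le {c c' : Code} (hle : CodeLE c c') {T : Set β} (hT : Under c' T) :
    Under c T := by
  induction hle generalizing T with
  | point c =>
    induction c generalizing T with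
    | point => exact hT
    | add a b ha hb =>
      obtain ⟨A, B, hA, -, -, h, -⟩ := hT
      exact (ha h).mono hA
    | sum t f ih =>
      obtain ⟨A, hA, -, h⟩ := hT
      exact (ih _ (h 0)).mono (hA 0)
  | add _ _ ha hb =>
    obtain ⟨A, B, hA, hB, hAB, h₁, h₂⟩ := hT
    exact ⟨A, B, hA, hB, hAB, ha h₁, hb h₂⟩
  | addLeft _ ih =>
    obtain ⟨A, B, hA, -, -, h, -⟩ := hT
    exact (ih h).mono hA
  | addRight _ ih =>
    obtain ⟨A, B, -, hB, -, -, h⟩ := hT
    exact (ih h).mono hB
  | sum h _ ih =>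
    obtain ⟨A, hA, hsep, hu⟩ := hT
    obtain ⟨l, hl, hl'⟩ := exists_strictMono_unpair fun k => h (Nat.unpair k).1
    refine ⟨fun k => A (l k), fun k => hA _, hsep.comp hl, fun k => ?_⟩
    have := hu (l k)
    rw [hl'] at this
    exact ih _ this
  | sumTerm n _ ih =>
    obtain ⟨A, hA, -, hu⟩ := hT
    have := hu (Nat.pair n 0)
    rw [Nat.unpair_pair] at this
    exact (ih this).mono (hA _)

theorem Under.nonempty {c : Code} {T : Set β} (h : Under c T) : T.Nonempty :=
  Under.of_le (.point c) h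

theorem lt_of_later {t : Bool} {x y : α} {x' y' : β} (h : Later t x y) (h' : Later t x' y') :
    (x < y → x' < y') ∧ (y < x → y' < x') := by
  cases t
  · exact ⟨fun hxy => absurd hxy (lt_asymm h), fun _ => h'⟩
  · exact ⟨fun _ => h', fun hyx => absurd hyx (lt_asymm h)⟩

/-- A set above a code embeds into any set under it. -/
theorem exists_strictMono {c : Code} {S : Set α} {T : Set β} (hS : Above c S) (hT : Under c T) :
    ∃ m : S → T, StrictMono m := by
  classical
  induction c generalizing S T with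
  | point =>
    obtain ⟨y, hy⟩ := hT
    exact ⟨fun _ => ⟨y, hy⟩, fun a b hab => absurd (Subtype.ext (hS a.2 b.2)) hab.ne⟩
  | add a b ha hb =>
    obtain ⟨A, B, hsub, hAB, hA, hB⟩ := hS
    obtain ⟨A', B', hA', hB', hAB', hA'', hB''⟩ := hT
    obtain ⟨m, hm⟩ := ha hA hA''
    obtain ⟨m', hm'⟩ := hb hB hB''
    refine ⟨fun x => if h : x.1 ∈ A then ⟨m ⟨x, h⟩, hA' (m _).2⟩
      else ⟨m' ⟨x, (hsub x.2).resolve_left h⟩, hB' (m' _).2⟩, fun x y hxy => ?_⟩
    by_cases hx : x.1 ∈ A <;> by_cases hy : y.1 ∈ A <;> simp only [dif_pos, dif_neg, hx, hy,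
      not_false_eq_true]
    · exact hm (show (⟨x, hx⟩ : A) < ⟨y, hy⟩ from hxy)
    · exact hAB' _ (m _).2 _ (m' _).2
    · exact absurd (show x.1 < y.1 from hxy) (lt_asymm (hAB _ hy _ ((hsub x.2).resolve_left hx)))
    · exact hm' (show (⟨x, _⟩ : B) < ⟨y, _⟩ from hxy)
  | sum t f ih =>
    obtain ⟨A, hsub, hsep, hA⟩ := hS
    obtain ⟨A', hA', hsep', hA''⟩ := hT
    choose m hm using fun k => ih _ (hA k) (hA'' k)
    choose k hk using fun x : S => mem_iUnion.1 (hsub x.2)
    refine ⟨fun x => ⟨m (k x) ⟨x, hk x⟩, hA' _ (m _ _).2⟩, fun x y hxy => ?_⟩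
    rcases lt_trichotomy (k x) (k y) with h | h | h
    · exact (lt_of_later (hsep _ _ h _ (hk x) _ (hk y))
        (hsep' _ _ h _ (m _ _).2 _ (m _ _).2)).1 hxy
    · change (m (k x) ⟨x, hk x⟩).1 < (m (k y) ⟨y, hk y⟩).1
      have key : ∀ (i : ℕ) (hy : y.1 ∈ A i), i = k x →
          (m (k x) ⟨x, hk x⟩).1 < (m i ⟨y, hy⟩).1 := by
        rintro i hy rfl
        exact hm _ (show (⟨x, hk x⟩ : A (k x)) < ⟨y, hy⟩ from hxy)
      exact key _ (hk y) h.symm
    · exact (lt_of_later (hsep _ _ h _ (hk y) _ (hk x))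
        (hsep' _ _ h _ (m _ _).2 _ (m _ _).2)).2 hxy

/-- Described exactly by a code, or empty. -/
def Exact (S : Set α) : Prop :=
  S = ∅ ∨ ∃ c, Above c S ∧ Under c S

theorem exact_of_subsingleton {S : Set α} (h : S.Subsingleton) : Exact S := by
  rcases S.eq_empty_or_nonempty with hS | hS
  exacts [.inl hS, .inr ⟨.point, h, hS⟩]

theorem Exact.union {A B : Set α} (hA : Exact A) (hB : Exact B)
    (hAB : ∀ x ∈ A, ∀ y ∈ B, x < y) : Exact (A ∪ B) := by
  rcases hA with rfl | ⟨a, ha, ha'⟩
  · rwa [empty_union]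
  rcases hB with rfl | ⟨b, hb, hb'⟩
  · rw [union_empty]
    exact .inr ⟨a, ha, ha'⟩
  exact .inr ⟨.add a b, ⟨A, B, subset_rfl, hAB, ha, hb⟩,
    A, B, subset_union_left, subset_union_right, hAB, ha', hb'⟩

theorem Exact.union_later {t : Bool} {A B : Set α} (hA : Exact A) (hB : Exact B)
    (hAB : ∀ x ∈ A, ∀ y ∈ B, Later t x y) : Exact (A ∪ B) := by
  cases t
  · rw [union_comm]
    exact hB.union hA fun x hx y hy => hAB y hy x hx
  · exact hA.union hB hAB

theorem exact_biUnion_lt {t : Bool} {A : ℕ → Set α} (hsep : Separated t A)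
    (hA : ∀ k, Exact (A k)) (N : ℕ) : Exact (⋃ k < N, A k) := by
  induction N with
  | zero => exact .inl (by simp)
  | succ N ih =>
    have e : (⋃ k < N + 1, A k) = (⋃ k < N, A k) ∪ A N := by
      rw [biUnion_lt_succ]
    rw [e]
    refine ih.union_later (t := t) (hA N) fun x hx y hy => ?_
    obtain ⟨k, hk, hxk⟩ := mem_iUnion₂.1 hx
    exact hsep k N hk x hxk y hy

/-- In a sequence of codes almost every term is below infinitely many others. -/
theorem exists_regular_tail (c : ℕ → Code) :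
    ∃ N, ∀ i, N ≤ i → ∀ M, ∃ j, M ≤ j ∧ CodeLE (c i) (c j) := by
  by_contra! hno
  choose i hi M hM using hno
  let p : ℕ → ℕ := fun k => Nat.rec 0 (fun _ N => max N (max (i N + 1) (M N))) k
  have hp : ∀ k l, k ≤ l → p k ≤ p l := fun k l hkl => by
    induction hkl with
    | refl => exact le_rfl
    | @step l _ ih => exact ih.trans (le_max_left _ _)
  obtain ⟨a, b, hab, hle⟩ := isBQO_code.exists_le fun k => c (i (p k))
  exact hM _ _ (((le_max_right _ _).trans (le_max_right _ _)).trans
    ((hp (a + 1) b hab).trans (hi (p b)))) hle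

/-- **Sums along `ω` and `ω*` of exact orders are exact.** -/
theorem exact_iUnion {t : Bool} {A : ℕ → Set α} (hsep : Separated t A) (hA : ∀ k, Exact (A k)) :
    Exact (⋃ k, A k) := by
  classical
  by_cases hfin : {k | (A k).Nonempty}.Finite
  · obtain ⟨N, hN⟩ := hfin.bddAbove
    have e : (⋃ k, A k) = ⋃ k < N + 1, A k := by
      refine subset_antisymm (iUnion_subset fun k x hx => ?_)
        (iUnion₂_subset fun k _ => subset_iUnion A k)
      exact mem_iUnion₂.2 ⟨k, Nat.lt_succ_of_le (hN ⟨x, hx⟩), hx⟩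
    rw [e]
    exact exact_biUnion_lt hsep hA _
  let n : ℕ → ℕ := Nat.nth fun k => (A k).Nonempty
  have hn : StrictMono n := Nat.nth_strictMono hfin
  have hne : ∀ i, (A (n i)).Nonempty := Nat.nth_mem_of_infinite hfin
  choose c hc hc' using fun i => (hA (n i)).resolve_left (hne i).ne_empty
  obtain ⟨N, hN⟩ := exists_regular_tail c
  have e : (⋃ k, A k) = (⋃ k < n N, A k) ∪ ⋃ i, A (n (N + i)) := by
    refine subset_antisymm (iUnion_subset fun k x hx => ?_)
      (union_subset (iUnion₂_subset fun k _ => subset_iUnion A k)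
        (iUnion_subset fun i => subset_iUnion A _))
    by_cases hk : k < n N
    · exact .inl (mem_iUnion₂.2 ⟨k, hk, hx⟩)
    · obtain ⟨i, rfl⟩ : k ∈ range n := by
        rw [Nat.range_nth_of_infinite hfin]
        exact ⟨x, hx⟩
      have hi : N ≤ i := hn.le_iff_le.1 (not_lt.1 hk)
      exact .inr (mem_iUnion.2 ⟨i - N, by rwa [Nat.add_sub_cancel' hi]⟩)
  rw [e]
  refine (exact_biUnion_lt hsep hA _).union_later (t := t) ?_ fun x hx y hy => ?_
  · refine .inr ⟨.sum t fun i => c (N + i), ?_, ?_⟩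
    · obtain ⟨l, hl, hl'⟩ := exists_strictMono_unpair id
      refine ⟨fun k => {x | ∃ i, l i = k ∧ x ∈ A (n (N + i))}, iUnion_subset fun i x hx =>
        mem_iUnion.2 ⟨l i, i, rfl, hx⟩, ?_, fun k => ?_⟩
      · rintro k k' hkk x ⟨i, rfl, hx⟩ y ⟨j, rfl, hy⟩
        exact hsep _ _ (hn (Nat.add_lt_add_left (hl.lt_iff_lt.1 hkk) N)) x hx y hy
      · by_cases hk : ∃ i, l i = k
        · obtain ⟨i, rfl⟩ := hk
          rw [hl']
          refine (hc (N + i)).mono ?_
          rintro x ⟨j, hj, hx⟩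
          rwa [hl.injective hj] at hx
        · exact (above_empty _).mono fun x ⟨i, hi, _⟩ => hk ⟨i, hi⟩
    · choose nx hnx hle using fun k M => hN (N + (Nat.unpair k).1) (Nat.le_add_right _ _) M
      let j : ℕ → ℕ := fun k => Nat.rec (nx 0 N) (fun k p => nx (k + 1) (p + 1)) k
      have hj : StrictMono j :=
        strictMono_nat_of_lt_succ fun k => (Nat.lt_succ_self (j k)).trans_le (hnx _ _)
      have hjN : ∀ k, N ≤ j k := fun k => (hnx 0 N).trans (hj.monotone (Nat.zero_le k))
      refine ⟨fun k => A (n (j k)), fun k x hx => mem_iUnion.2 ⟨j k - N, ?_⟩,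
        hsep.comp (hn.comp hj), fun k => Under.of_le ?_ (hc' (j k))⟩
      · rwa [Nat.add_sub_cancel' (hjN k)]
      · cases k with
        | zero => exact hle 0 N
        | succ k => exact hle (k + 1) (j k + 1)
  · obtain ⟨k, hk, hxk⟩ := mem_iUnion₂.1 hx
    obtain ⟨i, hyi⟩ := mem_iUnion.1 hy
    exact hsep _ _ (hk.trans_le (hn.monotone (Nat.le_add_right N i))) x hxk y hyi

end FA.Laver
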