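import Fermat.Agent.Laver.Hausdorff
import Mathlib.Order.WellQuasiOrder

/-!
# Laver's theorem

Countable linear orders are better-quasi-ordered, in particular well-quasi-ordered, by
embeddability.
-/

set_option autoImplicit false

universe u

namespace FA.Laver

open Set

/-- A countable linear order. -/
structure CountableOrder : Type (u + 1) where
  /-- The points. -/
  Carrier : Type u
  [order : LinearOrder Carrier]
  [countable : Countable Carrier]

attribute [instance] CountableOrder.order CountableOrder.countable

/-- Embeddability. -/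
def CountableOrder.Embeds (a b : CountableOrder.{u}) : Prop :=
  Nonempty (a.Carrier ↪o b.Carrier)

open Classical in
/-- A code of a nonempty scattered order. -/
noncomputable def CountableOrder.code (a : CountableOrder.{u}) : Code :=
  if h : ∃ c, Above c (univ : Set a.Carrier) ∧ Under c (univ : Set a.Carrier) then h.choose
  else .point

theorem CountableOrder.code_spec {a : CountableOrder.{u}} (he : ¬IsEmpty a.Carrier)
    (hq : ¬Nonempty (ℚ ↪o a.Carrier)) :
    Above a.code (univ : Set a.Carrier) ∧ Under a.code (univ : Set a.Carrier) := by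
  have h : ∃ c, Above c (univ : Set a.Carrier) ∧ Under c (univ : Set a.Carrier) := by
    rcases exact_univ_or_rat_embedding (α := a.Carrier) with (h | h) | h
    · exact absurd (univ_eq_empty_iff.1 h) he
    · exact h
    · exact absurd h hq
  rw [CountableOrder.code, dif_pos h]
  exact h.choose_spec

/-- **Laver's theorem.** -/
theorem isBQO_countableOrder : IsBQO CountableOrder.Embeds.{u} := by
  intro f hf D hD hbad
  obtain ⟨B₁, h₁, h₁i, h | he⟩ := exists_homogeneous hf (fun a _ => IsEmpty a.Carrier) hD
  · have := h B₁ subset_rfl h₁i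
    exact hbad B₁ h₁ h₁i ⟨OrderEmbedding.ofIsEmpty⟩
  obtain ⟨B₂, h₂, h₂i, h | hq⟩ :=
    exists_homogeneous hf (fun a _ => Nonempty (ℚ ↪o a.Carrier)) h₁i
  · obtain ⟨g⟩ := Order.embedding_from_countable_to_dense (val f B₂).Carrier ℚ
    obtain ⟨g'⟩ := h (dropMin B₂) (dropMin_subset _) (dropMin_infinite h₂i)
    exact hbad B₂ (h₂.trans h₁) h₂i ⟨g.trans g'⟩
  refine isBQO_code _ (hf.comp CountableOrder.code) B₂ h₂i fun C hC hCi hle => ?_
  obtain ⟨ha, -⟩ := CountableOrder.code_spec (he C (hC.trans h₂) hCi) (hq C hC hCi)
  obtain ⟨-, hb⟩ := CountableOrder.code_spec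
    (he _ ((dropMin_subset C).trans (hC.trans h₂)) (dropMin_infinite hCi))
    (hq _ ((dropMin_subset C).trans hC) (dropMin_infinite hCi))
  obtain ⟨m, hm⟩ := exists_strictMono ha (Under.of_le hle hb)
  exact hbad C (hC.trans (h₂.trans h₁)) hCi
    ⟨OrderEmbedding.ofStrictMono (fun x => (m ⟨x, mem_univ x⟩).1) fun x y hxy => hm hxy⟩

/-- **Fraïssé's conjecture.** Countable linear orders are well-quasi-ordered. -/
theorem wellQuasiOrdered_countableOrder : WellQuasiOrdered CountableOrder.Embeds.{u} :=
  isBQO_countableOrder.exists_le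

end FA.Laver
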